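import Mathlib

/-!
# S19 / A : linear algebra in spaces of functions `X → Ω` (Mathlib only) -- Coeff
-/

set_option autoImplicit false

namespace Fermat.Agent.S19.A

variable {Ω : Type*} [Field Ω]

variable {X ι T : Type*} (s : T → Ω →+* Ω) (a : T → X → X)

/-- TASK S19/A-Lin5. Coefficients of an equivariant function in an independent family of
equivariant functions are invariant. -/
theorem coeff_fixed_of_equivariant [Fintype ι] (ha : ∀ t, Function.Surjective (a t))
    (f : ι → X → Ω) (hf : ∀ i t x, f i (a t x) = s t (f i x)) (hli : LinearIndependent Ω f)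
    (g : X → Ω) (hg : ∀ t x, g (a t x) = s t (g x)) (c : ι → Ω) (h : g = ∑ i, c i • f i) :
    ∀ t i, s t (c i) = c i := by
  intro t
  have hrel : ∑ i, (s t (c i) - c i) • f i = 0 := by
    funext y
    obtain ⟨x, rfl⟩ := ha t y
    have h1 : g (a t x) = ∑ i, c i * f i (a t x) := by
      rw [h]; simp [Finset.sum_apply]
    have h2 : g (a t x) = ∑ i, s t (c i) * f i (a t x) := by
      rw [hg, h]
      simp only [Finset.sum_apply, Pi.smul_apply, smul_eq_mul, map_sum, map_mul, hf]
    simp only [Finset.sum_apply, Pi.smul_apply, smul_eq_mul, sub_mul, Finset.sum_sub_distrib,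
      Pi.zero_apply]
    rw [← h1, ← h2, sub_self]
  intro i
  exact sub_eq_zero.mp (Fintype.linearIndependent_iff.mp hli _ hrel i)

end Fermat.Agent.S19.A
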