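import Mathlib

/-!
# S19 / A : linear algebra in spaces of functions `X → Ω` (Mathlib only) -- Eval
-/

set_option autoImplicit false

namespace Fermat.Agent.S19.A

variable {Ω : Type*} [Field Ω]

/-- TASK S19/A-Lin3. `Ω`-algebra homs `Ω^X → Ω` are evaluations (`X` finite). -/
theorem exists_eval_of_algHom {X : Type*} [Finite X] (Φ : (X → Ω) →ₐ[Ω] Ω) :
    ∃ x, ∀ f, Φ f = f x := by
  classical
  cases nonempty_fintype X
  -- decomposition of a function
  have hdec : ∀ f : X → Ω, f = ∑ x, f x • (Pi.single x (1 : Ω) : X → Ω) := by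
    intro f
    ext y
    simp [Finset.sum_apply, Pi.single_apply]
  have hΦ : ∀ f : X → Ω, Φ f = ∑ x, f x * Φ (Pi.single x (1 : Ω)) := by
    intro f
    conv_lhs => rw [hdec f]
    simp [map_sum, map_smul]
  -- some idempotent is not killed
  obtain ⟨x, hx⟩ : ∃ x, Φ (Pi.single x (1 : Ω)) ≠ 0 := by
    by_contra hcon
    push Not at hcon
    have h1 := hΦ 1
    rw [map_one] at h1
    simp [hcon] at h1
  have hidem : Φ (Pi.single x (1 : Ω)) * Φ (Pi.single x (1 : Ω)) = Φ (Pi.single x (1 : Ω)) := by
    rw [← map_mul, ← Pi.single_mul, one_mul]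
  have hx1 : Φ (Pi.single x (1 : Ω)) = 1 := by
    have := mul_right_cancel₀ hx (hidem.trans (one_mul _).symm)
    exact this
  have hy0 : ∀ y, y ≠ x → Φ (Pi.single y (1 : Ω)) = 0 := by
    intro y hy
    have h0 : (Pi.single y (1 : Ω) : X → Ω) * Pi.single x (1 : Ω) = 0 := by
      ext z
      simp only [Pi.mul_apply, Pi.single_apply, Pi.zero_apply]
      split_ifs with h1 h2
      · exact absurd (h1.symm.trans h2) hy
      · simp
      · simp
      · simp
    have := congrArg Φ h0
    rw [map_mul, hx1, mul_one, map_zero] at this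
    exact this
  refine ⟨x, fun f => ?_⟩
  rw [hΦ f, Finset.sum_eq_single x (fun y _ hy => by rw [hy0 y hy, mul_zero]) (by simp), hx1,
    mul_one]

end Fermat.Agent.S19.A
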