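import Mathlib

/-!
# S19 / A : linear algebra in spaces of functions `X → Ω` (Mathlib only) -- Indep
-/

set_option autoImplicit false

namespace Fermat.Agent.S19.A

variable {Ω : Type*} [Field Ω]

variable {R X ι T : Type*} [CommRing R] [Algebra R Ω] (s : T → Ω →+* Ω) (a : T → X → X)

/-- TASK S19/A-Lin4. Galois descent of independence (minimal relation argument): a family of
equivariant functions which is independent over `R` is independent over `Ω`, if every invariant
element of `Ω` is a fraction of elements of `R`. -/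
theorem linearIndependent_of_equivariant (ha : ∀ t, Function.Surjective (a t))
    (hfix : ∀ c : Ω, (∀ t, s t c = c) →
      ∃ d r : R, algebraMap R Ω d ≠ 0 ∧ algebraMap R Ω d * c = algebraMap R Ω r)
    (f : ι → X → Ω) (hf : ∀ i t x, f i (a t x) = s t (f i x))
    (hind : LinearIndependent R f) : LinearIndependent Ω f := by
  classical
  rw [linearIndependent_iff'] at hind ⊢
  intro S
  induction S using Finset.strongInduction with
  | H S ih =>
    intro g hg
    by_contra hcon
    push Not at hcon
    obtain ⟨i₀, hi₀, hgi₀⟩ := hcon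
    set c : ι → Ω := fun i => (g i₀)⁻¹ * g i with hc
    have hc0 : c i₀ = 1 := inv_mul_cancel₀ hgi₀
    have hrel : ∑ i ∈ S, c i • f i = 0 := by
      have : ∑ i ∈ S, c i • f i = (g i₀)⁻¹ • ∑ i ∈ S, g i • f i := by
        rw [Finset.smul_sum]
        refine Finset.sum_congr rfl fun i _ => ?_
        rw [smul_smul]
      rw [this, hg, smul_zero]
    have hrelx : ∀ x, ∑ i ∈ S, c i * f i x = 0 := fun x => by
      have := congrFun hrel x
      simpa [Finset.sum_apply] using this
    have hinv : ∀ t, ∀ i ∈ S, s t (c i) = c i := by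
      intro t
      have h1 : ∑ i ∈ S, (s t (c i)) • f i = 0 := by
        funext y
        obtain ⟨x, rfl⟩ := ha t y
        have := congrArg (s t) (hrelx x)
        rw [map_sum, map_zero] at this
        simp only [map_mul, ← hf] at this
        simpa [Finset.sum_apply] using this
      have h2 : ∑ i ∈ S.erase i₀, (s t (c i) - c i) • f i = 0 := by
        have h3 : ∑ i ∈ S, (s t (c i) - c i) • f i = 0 := by
          simp only [sub_smul, Finset.sum_sub_distrib, h1, hrel, sub_zero]
        rw [← Finset.add_sum_erase S _ hi₀, hc0, map_one, sub_self, zero_smul, zero_add] at h3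
        exact h3
      have h4 := ih (S.erase i₀) (Finset.erase_ssubset hi₀) _ h2
      intro i hi
      by_cases hii : i = i₀
      · subst hii; rw [hc0, map_one]
      · exact sub_eq_zero.mp (h4 i (Finset.mem_erase.mpr ⟨hii, hi⟩))
    have hex : ∀ i, ∃ d r : R, i ∈ S →
        algebraMap R Ω d ≠ 0 ∧ algebraMap R Ω d * c i = algebraMap R Ω r := by
      intro i
      by_cases hi : i ∈ S
      · obtain ⟨d, r, h1, h2⟩ := hfix (c i) (fun t => hinv t i hi)
        exact ⟨d, r, fun _ => ⟨h1, h2⟩⟩
      · exact ⟨0, 0, fun h => absurd h hi⟩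
    choose d r hdr using hex
    have hD : algebraMap R Ω (∏ j ∈ S, d j) ≠ 0 := by
      rw [map_prod]
      exact Finset.prod_ne_zero_iff.mpr fun j hj => (hdr j hj).1
    have hcoef : ∀ i ∈ S, algebraMap R Ω (r i * ∏ j ∈ S.erase i, d j)
        = algebraMap R Ω (∏ j ∈ S, d j) * c i := by
      intro i hi
      rw [← Finset.mul_prod_erase S d hi, map_mul, map_mul, ← (hdr i hi).2]
      ring
    have hR : ∑ i ∈ S, (r i * ∏ j ∈ S.erase i, d j) • f i = 0 := by
      have : ∑ i ∈ S, (r i * ∏ j ∈ S.erase i, d j) • f i
          = algebraMap R Ω (∏ j ∈ S, d j) • ∑ i ∈ S, c i • f i := by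
        rw [Finset.smul_sum]
        refine Finset.sum_congr rfl fun i hi => ?_
        rw [smul_smul, ← hcoef i hi, algebraMap_smul]
      rw [this, hrel, smul_zero]
    have h0 := hind S _ hR i₀ hi₀
    have h1 := hcoef i₀ hi₀
    rw [h0, map_zero, hc0, mul_one] at h1
    exact hD h1.symm

end Fermat.Agent.S19.A
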