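import Mathlib

/-!
# S19 / A : linear algebra in spaces of functions `X → Ω` (Mathlib only) -- Sep
-/

set_option autoImplicit false

namespace Fermat.Agent.S19.A

variable {Ω : Type*} [Field Ω]

/-- TASK S19/A-Lin2. Lagrange interpolation: a multiplicatively closed set of functions on a finite
set which contains `1` and separates points spans all functions.
(`δ_x = ∏_{y ≠ x} (f_y - f_y y) / (f_y x - f_y y)`; the span is a subalgebra:
`Algebra.adjoin_eq_span`.) -/
theorem span_eq_top_of_separates {X : Type*} [Finite X] (S : Set (X → Ω)) (h1 : (1 : X → Ω) ∈ S)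
    (hmul : ∀ f ∈ S, ∀ g ∈ S, f * g ∈ S) (hsep : ∀ x y, x ≠ y → ∃ f ∈ S, f x ≠ f y) :
    Submodule.span Ω S = ⊤ := by
  classical
  have : Fintype X := Fintype.ofFinite X
  let M : Submonoid (X → Ω) :=
    { carrier := S, mul_mem' := fun ha hb => hmul _ ha _ hb, one_mem' := h1 }
  have hcl : (Submonoid.closure S : Set (X → Ω)) = S :=
    congrArg (fun N : Submonoid (X → Ω) => (N : Set (X → Ω))) (Submonoid.closure_eq M)
  have hspan : Submodule.span Ω S = Subalgebra.toSubmodule (Algebra.adjoin Ω S) := by
    rw [Algebra.adjoin_eq_span, hcl]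
  have hex : ∀ x y : X, ∃ e ∈ Algebra.adjoin Ω S, e x = 1 ∧ (y ≠ x → e y = 0) := by
    intro x y
    by_cases hxy : y = x
    · exact ⟨1, one_mem _, rfl, fun h => absurd hxy h⟩
    · obtain ⟨f, hf, hne⟩ := hsep x y (Ne.symm hxy)
      refine ⟨(f - algebraMap Ω (X → Ω) (f y)) * algebraMap Ω (X → Ω) (f x - f y)⁻¹,
        mul_mem (sub_mem (Algebra.subset_adjoin hf) (Subalgebra.algebraMap_mem _ _))
          (Subalgebra.algebraMap_mem _ _), ?_, fun _ => ?_⟩
      · simp only [Pi.mul_apply, Pi.sub_apply, Pi.algebraMap_apply, Algebra.algebraMap_self,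
          RingHom.id_apply]
        exact mul_inv_cancel₀ (sub_ne_zero.2 hne)
      · simp
  choose e he hex hey using hex
  have hδ : ∀ x z : X, (∏ y, e x y) z = if z = x then 1 else 0 := by
    intro x z
    rw [Finset.prod_apply]
    split_ifs with h
    · subst h
      exact Finset.prod_eq_one fun y _ => hex z y
    · exact Finset.prod_eq_zero (Finset.mem_univ z) (hey x z h)
  rw [hspan, eq_top_iff]
  intro g _
  have hg : g = ∑ x, g x • ∏ y, e x y := by
    funext z
    rw [Finset.sum_apply]
    simp only [Pi.smul_apply, hδ, smul_eq_mul, mul_ite, mul_one, mul_zero]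
    rw [Finset.sum_ite_eq]
    simp
  rw [hg]
  exact Submodule.sum_mem _ fun x _ => Submodule.smul_mem _ _
    (Subalgebra.prod_mem _ fun y _ => he x y)

end Fermat.Agent.S19.A
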