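import Mathlib

/-!
# S19 / A : linear algebra in spaces of functions `X → Ω` (Mathlib only) -- Prod
-/

set_option autoImplicit false

namespace Fermat.Agent.S19.A

variable {Ω : Type*} [Field Ω]

/-- TASK S19/A-Lin1. External products of independent families of functions are independent.
Proof: fix `y`; `∑_i (∑_j c_ij v_j y) u_i = 0` gives `∑_j c_ij v_j y = 0` for all `i, y`. -/
theorem linearIndependent_prod {X Y ι κ : Type*} (u : ι → X → Ω) (v : κ → Y → Ω)
    (hu : LinearIndependent Ω u) (hv : LinearIndependent Ω v) :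
    LinearIndependent Ω (fun (p : ι × κ) (z : X × Y) => u p.1 z.1 * v p.2 z.2) := by
  classical
  rw [linearIndependent_iff'] at hu hv ⊢
  intro s g hg p hp
  set s₁ := s.image Prod.fst with hs₁
  set s₂ := s.image Prod.snd with hs₂
  set g' : ι × κ → Ω := fun q => if q ∈ s then g q else 0 with hg'
  have hsub : s ⊆ s₁ ×ˢ s₂ := by
    intro q hq
    rw [Finset.mem_product]
    exact ⟨Finset.mem_image_of_mem _ hq, Finset.mem_image_of_mem _ hq⟩
  have hsum : ∀ (x : X) (y : Y), ∑ i ∈ s₁, ∑ j ∈ s₂, g' (i, j) * (u i x * v j y) = 0 := by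
    intro x y
    have h1 := congrFun hg (x, y)
    simp only [Finset.sum_apply, Pi.smul_apply, smul_eq_mul, Pi.zero_apply] at h1
    rw [← Finset.sum_product' (f := fun i j => g' (i, j) * (u i x * v j y)),
      ← Finset.sum_subset hsub]
    · rw [← h1]
      refine Finset.sum_congr rfl fun q hq => ?_
      simp only [hg', if_pos hq]
    · intro q _ hq
      simp only [hg', if_neg hq, zero_mul]
  have h2 : ∀ (y : Y), ∀ i ∈ s₁, ∑ j ∈ s₂, g' (i, j) * v j y = 0 := by
    intro y
    apply hu s₁ (fun i => ∑ j ∈ s₂, g' (i, j) * v j y)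
    ext x
    simp only [Finset.sum_apply, Pi.smul_apply, smul_eq_mul, Pi.zero_apply]
    rw [← hsum x y]
    refine Finset.sum_congr rfl fun i _ => ?_
    rw [Finset.sum_mul]
    refine Finset.sum_congr rfl fun j _ => ?_
    ring
  have h3 : ∀ i ∈ s₁, ∀ j ∈ s₂, g' (i, j) = 0 := by
    intro i hi
    apply hv s₂ (fun j => g' (i, j))
    ext y
    simp only [Finset.sum_apply, Pi.smul_apply, smul_eq_mul, Pi.zero_apply]
    exact h2 y i hi
  have h4 := h3 p.1 (Finset.mem_image_of_mem _ hp) p.2 (Finset.mem_image_of_mem _ hp)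
  simpa only [hg', Prod.mk.eta, if_pos hp] using h4

end Fermat.Agent.S19.A
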